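/-
S16 package U9-ARITH (helper68): the arithmetic "kappa lemma" of the UPPER bound.

For a prime `p ≥ 5` put `n = (p - 1) / gcd (p - 1) 12` (`eisensteinNumerator p`) and
`κ = (p + 1) * gcd (p - 1) 12 / 24`.  Then `p ^ 2 - 1 = 24 * n * κ`, and every prime `l ∣ κ`
lies in one of the classes (a) `l ≥ 5`, `l ∣ p + 1`; (b) `l = 3`, `9 ∣ p + 1`;
(c) `l = 2`, `8 ∣ p + 1`.  Hence an integer `m` with `24 * m ∣ p ^ 2 - 1` which is not divisible
by any prime of these classes divides `n`.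
-/
import Mathlib
import Fermat.Prelude.Def_ModularCurve_ModularUnit

set_option autoImplicit false

namespace Fermat.Agent.S16.H68

open ModularCurve

/-- The cofactor `κ = (p + 1) * gcd (p - 1) 12 / 24`. -/
def kappa (p : ℕ) : ℕ := (p + 1) * Nat.gcd (p - 1) 12 / 24

/-- The residue of a prime `p ≥ 5` modulo `12`. -/
theorem mod_twelve_of_prime {p : ℕ} (hp : p.Prime) (hp5 : 5 ≤ p) :
    p % 12 = 1 ∨ p % 12 = 5 ∨ p % 12 = 7 ∨ p % 12 = 11 := by
  have h2 : ¬ 2 ∣ p := fun h => by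
    have := (Nat.prime_dvd_prime_iff_eq Nat.prime_two hp).mp h
    omega
  have h3 : ¬ 3 ∣ p := fun h => by
    have := (Nat.prime_dvd_prime_iff_eq Nat.prime_three hp).mp h
    omega
  omega

/-- A prime `p ≥ 5` is `12 k + r` with `r ∈ {1, 5, 7, 11}`. -/
theorem exists_eq_twelve_mul_add {p : ℕ} (hp : p.Prime) (hp5 : 5 ≤ p) :
    ∃ k : ℕ, p = 12 * k + 1 ∨ p = 12 * k + 5 ∨ p = 12 * k + 7 ∨ p = 12 * k + 11 := by
  refine ⟨p / 12, ?_⟩
  have := mod_twelve_of_prime hp hp5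
  omega

theorem gcd_twelve_mul_add (k c : ℕ) : Nat.gcd (12 * k + c) 12 = Nat.gcd c 12 :=
  Nat.gcd_mul_left_add_left 12 c k

/-- The explicit values of `gcd (p - 1) 12`, `eisensteinNumerator p` and `kappa p` in the four
residue classes modulo `12`. -/
theorem values_one (k : ℕ) :
    Nat.gcd (12 * k + 1 - 1) 12 = 12 ∧ eisensteinNumerator (12 * k + 1) = k ∧
      kappa (12 * k + 1) = 6 * k + 1 := by
  have hg : Nat.gcd (12 * k + 1 - 1) 12 = 12 := by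
    have : 12 * k + 1 - 1 = 12 * k + 0 := by omega
    rw [this, gcd_twelve_mul_add]; rfl
  refine ⟨hg, ?_, ?_⟩
  · rw [eisensteinNumerator, hg]; omega
  · rw [kappa, hg]; omega

theorem values_five (k : ℕ) :
    Nat.gcd (12 * k + 5 - 1) 12 = 4 ∧ eisensteinNumerator (12 * k + 5) = 3 * k + 1 ∧
      kappa (12 * k + 5) = 2 * k + 1 := by
  have hg : Nat.gcd (12 * k + 5 - 1) 12 = 4 := by
    have : 12 * k + 5 - 1 = 12 * k + 4 := by omega
    rw [this, gcd_twelve_mul_add]; rfl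
  refine ⟨hg, ?_, ?_⟩
  · rw [eisensteinNumerator, hg]; omega
  · rw [kappa, hg]; omega

theorem values_seven (k : ℕ) :
    Nat.gcd (12 * k + 7 - 1) 12 = 6 ∧ eisensteinNumerator (12 * k + 7) = 2 * k + 1 ∧
      kappa (12 * k + 7) = 3 * k + 2 := by
  have hg : Nat.gcd (12 * k + 7 - 1) 12 = 6 := by
    have : 12 * k + 7 - 1 = 12 * k + 6 := by omega
    rw [this, gcd_twelve_mul_add]; rfl
  refine ⟨hg, ?_, ?_⟩
  · rw [eisensteinNumerator, hg]; omega
  · rw [kappa, hg]; omega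

theorem values_eleven (k : ℕ) :
    Nat.gcd (12 * k + 11 - 1) 12 = 2 ∧ eisensteinNumerator (12 * k + 11) = 6 * k + 5 ∧
      kappa (12 * k + 11) = k + 1 := by
  have hg : Nat.gcd (12 * k + 11 - 1) 12 = 2 := by
    have : 12 * k + 11 - 1 = 12 * k + 10 := by omega
    rw [this, gcd_twelve_mul_add]; rfl
  refine ⟨hg, ?_, ?_⟩
  · rw [eisensteinNumerator, hg]; omega
  · rw [kappa, hg]; omega

/-- `p ^ 2 - 1 = 24 * n * κ` for a prime `p ≥ 5`. -/
theorem sq_sub_one_eq {p : ℕ} (hp : p.Prime) (hp5 : 5 ≤ p) :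
    p ^ 2 = 24 * (eisensteinNumerator p * kappa p) + 1 := by
  obtain ⟨k, rfl | rfl | rfl | rfl⟩ := exists_eq_twelve_mul_add hp hp5
  · obtain ⟨-, h1, h2⟩ := values_one k
    rw [h1, h2]; ring
  · obtain ⟨-, h1, h2⟩ := values_five k
    rw [h1, h2]; ring
  · obtain ⟨-, h1, h2⟩ := values_seven k
    rw [h1, h2]; ring
  · obtain ⟨-, h1, h2⟩ := values_eleven k
    rw [h1, h2]; ring

/-- Integer form of `sq_sub_one_eq`. -/
theorem int_sq_sub_one_eq {p : ℕ} (hp : p.Prime) (hp5 : 5 ≤ p) :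
    (p : ℤ) ^ 2 - 1 = 24 * ((eisensteinNumerator p : ℤ) * (kappa p : ℤ)) := by
  have h := sq_sub_one_eq hp hp5
  have h' : ((p ^ 2 : ℕ) : ℤ) = ((24 * (eisensteinNumerator p * kappa p) + 1 : ℕ) : ℤ) := by
    rw [h]
  push_cast at h'
  linarith

/-- A prime is `2`, `3` or at least `5`. -/
theorem prime_cases {l : ℕ} (hl : l.Prime) : l = 2 ∨ l = 3 ∨ 5 ≤ l := by
  have h2 := hl.two_le
  have h4 : l ≠ 4 := fun h => by
    rw [h] at hl
    exact absurd hl (by decide)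
  omega

/-- **Kappa lemma**: the primes dividing `κ` lie in the three exceptional classes. -/
theorem prime_dvd_kappa {p : ℕ} (hp : p.Prime) (hp5 : 5 ≤ p) {l : ℕ} (hl : l.Prime)
    (hlk : l ∣ kappa p) :
    (5 ≤ l ∧ l ∣ p + 1) ∨ (l = 3 ∧ 9 ∣ p + 1) ∨ (l = 2 ∧ 8 ∣ p + 1) := by
  obtain ⟨k, rfl | rfl | rfl | rfl⟩ := exists_eq_twelve_mul_add hp hp5
  · -- κ = 6k+1, p + 1 = 2 κ
    rw [(values_one k).2.2] at hlk
    have hdvd : l ∣ 12 * k + 1 + 1 := by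
      have : 12 * k + 1 + 1 = 2 * (6 * k + 1) := by ring
      rw [this]; exact Dvd.dvd.mul_left hlk 2
    rcases prime_cases hl with rfl | rfl | h5
    · omega
    · omega
    · exact Or.inl ⟨h5, hdvd⟩
  · -- κ = 2k+1, p + 1 = 6 κ
    rw [(values_five k).2.2] at hlk
    have hdvd : l ∣ 12 * k + 5 + 1 := by
      have : 12 * k + 5 + 1 = 6 * (2 * k + 1) := by ring
      rw [this]; exact Dvd.dvd.mul_left hlk 6
    rcases prime_cases hl with rfl | rfl | h5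
    · omega
    · exact Or.inr (Or.inl ⟨rfl, by omega⟩)
    · exact Or.inl ⟨h5, hdvd⟩
  · -- κ = 3k+2, p + 1 = 4 κ
    rw [(values_seven k).2.2] at hlk
    have hdvd : l ∣ 12 * k + 7 + 1 := by
      have : 12 * k + 7 + 1 = 4 * (3 * k + 2) := by ring
      rw [this]; exact Dvd.dvd.mul_left hlk 4
    rcases prime_cases hl with rfl | rfl | h5
    · exact Or.inr (Or.inr ⟨rfl, by omega⟩)
    · omega
    · exact Or.inl ⟨h5, hdvd⟩
  · -- κ = k+1, p + 1 = 12 κ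
    rw [(values_eleven k).2.2] at hlk
    have hdvd : l ∣ 12 * k + 11 + 1 := by
      have : 12 * k + 11 + 1 = 12 * (k + 1) := by ring
      rw [this]; exact Dvd.dvd.mul_left hlk 12
    rcases prime_cases hl with rfl | rfl | h5
    · exact Or.inr (Or.inr ⟨rfl, by omega⟩)
    · exact Or.inr (Or.inl ⟨rfl, by omega⟩)
    · exact Or.inl ⟨h5, hdvd⟩

/-- **U9-ARITH.**  If `m ∣ (p ^ 2 - 1) / 24` and `m` is not divisible by any prime of the three
exceptional classes, then `m` divides the Eisenstein numerator `(p - 1) / gcd (p - 1) 12`. -/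
theorem dvd_eisensteinNumerator_of_classes (p : ℕ) (hp : p.Prime) (hp5 : 5 ≤ p) (m : ℤ)
    (h1 : 24 * m ∣ (p : ℤ) ^ 2 - 1)
    (ha : ∀ l : ℕ, l.Prime → 5 ≤ l → l ∣ p + 1 → ¬ (l : ℤ) ∣ m)
    (hb : 9 ∣ p + 1 → ¬ (3 : ℤ) ∣ m)
    (hc : 8 ∣ p + 1 → ¬ (2 : ℤ) ∣ m) :
    m ∣ (eisensteinNumerator p : ℤ) := by
  rw [int_sq_sub_one_eq hp hp5] at h1
  have h2 : m ∣ (eisensteinNumerator p : ℤ) * (kappa p : ℤ) :=
    (mul_dvd_mul_iff_left (by norm_num : (24 : ℤ) ≠ 0)).mp h1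
  refine Int.dvd_of_dvd_mul_left_of_gcd_one h2 ?_
  have hcop : Nat.Coprime m.natAbs (kappa p) := by
    refine Nat.coprime_of_dvd fun l hl hlm hlk => ?_
    have hlm' : (l : ℤ) ∣ m := Int.natCast_dvd.mpr hlm
    rcases prime_dvd_kappa hp hp5 hl hlk with ⟨h5, hd⟩ | ⟨rfl, hd⟩ | ⟨rfl, hd⟩
    · exact ha l hl h5 hd hlm'
    · exact hb hd (by exact_mod_cast hlm')
    · exact hc hd (by exact_mod_cast hlm')
  simpa [Int.gcd] using hcop

/-- The same statement with the hypothesis (I) in the form `m ∣ (p ^ 2 - 1) / 24`. -/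
theorem int_sq_sub_one_div {p : ℕ} (hp : p.Prime) (hp5 : 5 ≤ p) :
    ((p : ℤ) ^ 2 - 1) / 24 = (eisensteinNumerator p : ℤ) * (kappa p : ℤ) := by
  rw [int_sq_sub_one_eq hp hp5]
  exact Int.mul_ediv_cancel_left _ (by norm_num)

theorem twentyfour_dvd_sq_sub_one {p : ℕ} (hp : p.Prime) (hp5 : 5 ≤ p) :
    (24 : ℤ) ∣ (p : ℤ) ^ 2 - 1 :=
  ⟨_, int_sq_sub_one_eq hp hp5⟩

theorem dvd_eisensteinNumerator_of_classes' (p : ℕ) (hp : p.Prime) (hp5 : 5 ≤ p) (m : ℤ)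
    (h1 : m ∣ ((p : ℤ) ^ 2 - 1) / 24)
    (hcls : ∀ l : ℕ, l.Prime →
      ((5 ≤ l ∧ l ∣ p + 1) ∨ (l = 3 ∧ 9 ∣ p + 1) ∨ (l = 2 ∧ 8 ∣ p + 1)) → ¬ (l : ℤ) ∣ m) :
    m ∣ (eisensteinNumerator p : ℤ) := by
  refine dvd_eisensteinNumerator_of_classes p hp hp5 m ?_
    (fun l hl h5 hd => hcls l hl (Or.inl ⟨h5, hd⟩))
    (fun hd => by simpa using hcls 3 Nat.prime_three (Or.inr (Or.inl ⟨rfl, hd⟩)))
    (fun hd => by simpa using hcls 2 Nat.prime_two (Or.inr (Or.inr ⟨rfl, hd⟩)))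
  obtain ⟨c, hc⟩ := h1
  refine ⟨c, ?_⟩
  have h24 := twentyfour_dvd_sq_sub_one hp hp5
  rw [← Int.ediv_mul_cancel h24, hc]
  ring

/-! ### The `l`-adic size of `24 / (p - 1)` in the three classes

With `c = (p - 1) / 24` the constant term of the Eisenstein series, `G = (E' - f) / c` is
`≡ 1` modulo `l`, `9`, `8` in the classes (a), (b), (c) because `24 / (p - 1)` has `l`-adic
valuation `0`, `1`, `2` there. -/

/-- Class (a): `l ≥ 5`, `l ∣ p + 1` implies `l ∤ p - 1`. -/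
theorem not_dvd_pred_of_dvd_succ {l p : ℕ} (h5 : 5 ≤ l) (hp : 1 ≤ p) (hd : l ∣ p + 1) :
    ¬ l ∣ p - 1 := by
  intro h
  have h2 : l ∣ (p + 1) - (p - 1) := Nat.dvd_sub hd h
  have : (p + 1) - (p - 1) = 2 := by omega
  rw [this] at h2
  have := Nat.le_of_dvd (by norm_num) h2
  omega

/-- Class (b): `9 ∣ p + 1` implies `3 ∤ p - 1`. -/
theorem not_three_dvd_pred {p : ℕ} (hd : 9 ∣ p + 1) : ¬ 3 ∣ p - 1 := by
  omega

/-- Class (c): `8 ∣ p + 1` implies `p - 1 = 2 * odd`. -/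
theorem pred_eq_two_mul_odd {p : ℕ} (hd : 8 ∣ p + 1) : ∃ u : ℕ, Odd u ∧ p - 1 = 2 * u := by
  obtain ⟨k, hk⟩ := hd
  refine ⟨4 * k - 1, ?_, by omega⟩
  rw [Nat.odd_iff]
  omega

theorem eisensteinNumerator_two : eisensteinNumerator 2 = 1 := by decide

theorem eisensteinNumerator_three : eisensteinNumerator 3 = 1 := by decide

end Fermat.Agent.S16.H68
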